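/-
Fermat/Agent/MAZ/Top19/Core.lean  (helper19)

Programme MAZ (S15), S15-TOP hedge, part 1: **the frozen S15 statement from the two still-open leaves
(K3), (A3') and SIX unconditional facts that sit in heavy import closures** (kept as hypotheses here so
that this file has a light closure; `Top19/Main.lean` discharges them; the seventh, (E3), is
`D3Prime24.e3_uncond`, in the unfolded shape of `E3Asm58.E3Place`):

* `hfg`   := `Fermat.Agent.S17.result p hp hp5`               (Mordell–Weil for `J₀(p)(ℚ)`);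
* `hdiv`  := `Gm5.jzero_divisible_pow p r hr.pos`             (`MW.DivFinal5`);
* `hflat` := `T1AX41.hasFlatModel_torsion p r hrp`            (S19 at level `p`);
* `hK2`   := `T1AX41.hK2' …`                                  (T1A-X);
* `hG0`   := `HeckeRed71.G0All.hG0 hp`, `hE4 := HeckeRed71.G0All.hE4 hp`.

Everything else is wired here: `S18.result`, `Ogg24.pred_nsmul_c0`, `Ogg24.c0_rpart_ne_zero`,
`OggL24.red_nsmul_c0_ne_zero`, `CuspGal19.galois_smul_cuspZero`,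
`FinAbs19.eisenstein_fin_final`, `Hmem19.mem_selSystem_Gm`, `Constit89.nilQuad_gm`,
`A2Gm19.card_Gm_le_card_inv_inertia_sq`, `Unram64.inertia_fixes_division_pow`,
`Endgame88.s15_of_inputs_order`.
-/
import Mathlib
import Fermat.Agent.MAZ.FinAbs19.Leaves
import Fermat.Agent.MAZ.Endgame88.Inst
import Fermat.Agent.MAZ.Constit89.GmInst
import Fermat.Agent.MAZ.Unram64.Main
import Fermat.Agent.MAZ.CuspGal19.Main
import Fermat.Agent.MAZ.Ogg24.Main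
import Fermat.Agent.MAZ.OggL24.Red
import Fermat.Agent.S18

set_option autoImplicit false
set_option linter.unusedSectionVars false
set_option linter.unusedVariables false
set_option linter.style.haveILetI false
set_option synthInstance.maxHeartbeats 400000
set_option maxHeartbeats 1000000

open AlgebraicCurve ModularCurve WeierstrassCurve WeierstrassCurve.Affine

noncomputable section

namespace Fermat.Agent.MAZ.Top19

open Fermat.Agent.Flat44 Fermat.Agent.MAZ.SelCoh42 Fermat.Agent.MAZ.FlatCond42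
open Fermat.Agent.MAZ.Kum5 Fermat.Agent.MAZ.SSelInst97 ExtCitation
open Fermat.Agent.MAZ.HeckeCusp89 (cuspInf cuspZero)

local notation "Qb" => AlgebraicClosure ℚ

/-! ### (FIN') at one prime `r ≠ p` from (K3), (A3') and the heavy inputs -/

/-- **(FIN') at `r`** from (K3) in helper7's shape and (A3') in helper72's shape. -/
theorem fin_of_k3_a3 (p : ℕ) [NeZero p] (hp : p.Prime) (r : ℕ) (hr : r.Prime) (hpr : p ≠ r)
    (S : Finset ℕ) (hS : ({2, 3, p, r} : Finset ℕ) ⊆ S)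
    (hK3 : ∃ Ap : ValuationSubring Qb, Ap.LiesOverPrime p ∧ ∃ M₁ : ℕ, 0 < M₁ ∧
      ∀ k : ℕ, ∀ x ∈ FixedPoints.addSubgroup (Qb ≃ₐ[ℚ] Qb) (JZero p),
        ∃ z' : JZero p, r ^ k • z' = M₁ • x ∧ ∀ s ∈ Ap.inertiaSubgroupIn ℚ, s • z' = z')
    (hA3 : ∀ k : ℕ, Nat.card (Gm5.GmMod p r S k) ≤
      Nat.card ↥(Inv (Subgroup.zpowers complexConjugation) (Gm5.GmMod p r S k)) ^ 2)
    (hfg : AddGroup.FG ↥(FixedPoints.addSubgroup (Qb ≃ₐ[ℚ] Qb) (JZero p)))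
    (hdiv : ∀ k : ℕ, ∀ x : JZero p, ∃ y : JZero p, r ^ k • y = x)
    (hflat : ∀ k : ℕ, HasFlatModel r ↥(Submodule.torsionBy ℤ (JZero p) ((r : ℤ) ^ k))
      (torsionAct p ((r : ℤ) ^ k)))
    (hK2 : ∀ (k : ℕ), 0 < k → ∀ (x : ↥(Inv (⊤ : Subgroup GQ) (JZero p))) (z : JZero p)
      (hz : r ^ k • z = x.1),
      IsFlatCochain r (r ^ k) (kumCocycle galLevel (hdiv k)
        (Fermat.Agent.MAZ.KumFlat97.isSmooth_JZero p) z (fun g => by
          rw [hz]; exact mem_Inv_top.1 x.2 g)).1) :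
    ∃ t ∈ Gm5.heckeRing p S,
      (∃ s : ℤ, ¬ (r : ℤ) ∣ s ∧
        t (Fermat.Agent.MAZ.HeckeCusp89.c0 p) = s • Fermat.Agent.MAZ.HeckeCusp89.c0 p) ∧
      ∀ y ∈ FixedPoints.addSubgroup (Qb ≃ₐ[ℚ] Qb) (JZero p), ∃ N : ℕ, 0 < N ∧ N • t y = 0 := by
  haveI : Fact r.Prime := ⟨hr⟩
  haveI : Fact p.Prime := ⟨hp⟩
  have hpS : p ∈ S := hS (by simp)
  have hrS : r ∈ S := hS (by simp)
  haveI : Fact (p ∈ S) := ⟨hpS⟩
  obtain ⟨Ap, hAp, M₁, hM₁, hK3'⟩ := hK3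
  -- (K1): every `r ^ k`-division point of a rational point is unramified outside `p r`
  have hK1 : ∀ k : ℕ, ∀ I ∈ inertiaFamily p r, ∀ s ∈ I, ∀ z : JZero p,
      (∀ σ : Qb ≃ₐ[ℚ] Qb, σ • (r ^ k • z) = r ^ k • z) → s • z = z := by
    intro k I hI s hs z hz
    obtain ⟨q, A', hq, hqp, hqr, hA', rfl⟩ := hI
    exact Fermat.Agent.MAZ.Unram64.inertia_fixes_division_pow hq hr
      (fun h => hqp ((Nat.prime_dvd_prime_iff_eq hq hp).1 h)) hqr hA' k z hz s hs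
  refine Fermat.Agent.MAZ.FinAbs19.eisenstein_fin_final p hp S hpS r hpr Ap hAp hfg hdiv
    (Fermat.Agent.MAZ.KumFlat97.isSmooth_JZero p) ?_ ?_ ?_ M₁ hM₁ ?_
  · -- `hmem`
    intro k hk
    haveI : NeZero (r ^ k) := ⟨pow_ne_zero k hr.ne_zero⟩
    haveI : Finite (Gm5.GmMod p r S k) := Fermat.Agent.MAZ.FinAbs19.finite_GmStable p r hr S k
    have hnil : NilQuad (cycloChar r) (Gm5.GmMod p r S k) :=
      Fermat.Agent.MAZ.Constit89.nilQuad_gm r hrS k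
    exact Fermat.Agent.MAZ.Hmem19.mem_selSystem_Gm p r S k (cycloChar r) (inertiaFamily p r)
      (hflat k)
      (fun I hI s hs x hx => hK1 k I hI s hs x (fun σ => by
        rw [hx]; exact smul_zero (A := JZero p) σ))
      hnil
  · -- (A2)
    intro k _
    exact Fermat.Agent.MAZ.A2Gm19.card_Gm_le_card_inv_inertia_sq p hp r hr hpr S k Ap hAp
  · -- (A3')
    intro k _
    exact hA3 k
  · -- (K1) + (K2) + (K3)
    intro k hk x
    obtain ⟨z, hz⟩ := hdiv k x.1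
    have hxfix : ∀ σ : Qb ≃ₐ[ℚ] Qb, σ • x.1 = x.1 := fun σ => mem_Inv_top.1 x.2 σ
    obtain ⟨z', hz', hz3⟩ := hK3' k x.1 hxfix
    exact ⟨z, hz, fun I hI s hs => hK1 k I hI s hs z (fun σ => by rw [hz]; exact hxfix σ),
      hK2 k hk x z hz, z', hz', hz3⟩

/-! ### `c₀ ≠ 0` -/

/-- `c₀ ≠ 0` for `p ∉ {2, 3, 5, 7, 13}` (Ogg). -/
theorem c0_ne_zero (p : ℕ) [NeZero p] (hp : p.Prime)
    (hp' : p ∉ ({2, 3, 5, 7, 13} : Finset ℕ)) : Fermat.Agent.MAZ.HeckeCusp89.c0 p ≠ 0 := by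
  obtain ⟨r, hr, hrn⟩ := Nat.exists_prime_and_dvd (Fermat.Agent.MAZ.Endgame88.nE_ne_one hp hp')
  intro h0
  exact Fermat.Agent.MAZ.Ogg24.c0_rpart_ne_zero p hp hr hrn (by rw [h0, smul_zero])

/-! ### The top theorem, core form -/

/-- **S15 from (K3), (A3') and the seven heavy unconditional inputs.** -/
theorem s15_core
    {p : ℕ} [NeZero p] (hp : p.Prime) (hp' : p ∉ ({2, 3, 5, 7, 13} : Finset ℕ))
    (W : WeierstrassCurve ℤ)
    (Q : ((W.map (Int.castRingHom ℚ))⁄(AlgebraicClosure ℚ)).Point)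
    -- the two open leaves
    (hK3 : ∀ r : ℕ, r.Prime → r ∣ p - 1 →
      ∃ Ap : ValuationSubring Qb, Ap.LiesOverPrime p ∧ ∃ M₁ : ℕ, 0 < M₁ ∧
        ∀ k : ℕ, ∀ x ∈ FixedPoints.addSubgroup (Qb ≃ₐ[ℚ] Qb) (JZero p),
          ∃ z' : JZero p, r ^ k • z' = M₁ • x ∧ ∀ s ∈ Ap.inertiaSubgroupIn ℚ, s • z' = z')
    (hA3 : ∀ (r : ℕ) [Fact r.Prime], r ∣ p - 1 → ∀ S : Finset ℕ, p ∈ S → ∀ k : ℕ,
      Nat.card (Gm5.GmMod p r S k) ≤
        Nat.card ↥(Inv (Subgroup.zpowers complexConjugation) (Gm5.GmMod p r S k)) ^ 2)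
    -- the six heavy unconditional inputs
    (hfg : AddGroup.FG ↥(FixedPoints.addSubgroup (Qb ≃ₐ[ℚ] Qb) (JZero p)))
    (hdiv : ∀ r : ℕ, r.Prime → ∀ k : ℕ, ∀ x : JZero p, ∃ y : JZero p, r ^ k • y = x)
    (hflat : ∀ (r : ℕ) [Fact r.Prime], p ≠ r → ∀ k : ℕ,
      HasFlatModel r ↥(Submodule.torsionBy ℤ (JZero p) ((r : ℤ) ^ k)) (torsionAct p ((r : ℤ) ^ k)))
    (hK2 : ∀ (r : ℕ) [Fact r.Prime] (hr' : r.Prime), p ≠ r → ∀ (k : ℕ), 0 < k →
      ∀ (x : ↥(Inv (⊤ : Subgroup GQ) (JZero p))) (z : JZero p) (hz : r ^ k • z = x.1),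
      IsFlatCochain r (r ^ k) (kumCocycle galLevel (hdiv r hr' k)
        (Fermat.Agent.MAZ.KumFlat97.isSmooth_JZero p) z (fun g => by
          rw [hz]; exact mem_Inv_top.1 x.2 g)).1)
    (hG0 : ∀ {ℓ' : ℕ}, ℓ'.Prime → ℓ' ≠ p → ∀ A' : ValuationSubring Qb, A'.LiesOverPrime ℓ' →
      ReductionInputsModL A' p)
    (hE4 : ∀ {ℓ' : ℕ}, ℓ'.Prime → ℓ' ≠ p → ∀ A' : ValuationSubring Qb, A'.LiesOverPrime ℓ' →
      ∀ q : Nat.Primes, (q : ℕ) ≠ ℓ' → (q : ℕ) ≠ p → ∀ z : JZero p,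
        reductionModL A' p z = 0 → reductionModL A' p (heckeOperatorBar p q z) = 0)
    -- (E3), the unfolded `E3Asm58.E3Place p W Q`
    (hE3 : ∃ x : Place Qb (modularFunctionFieldBar p),
      (∀ σ : Qb ≃ₐ[ℚ] Qb, arithmeticGalois (modularFunctionFieldFull p) σ • x = x) ∧
      ∀ {ℓ' : ℕ}, ℓ'.Prime → ℓ' ≠ p → (ℓ' : ℤ) ∣ W.Δ → ¬ (ℓ' : ℤ) ∣ W.c₄ →
        ∀ A' : ValuationSubring Qb, A'.LiesOverPrime ℓ' →
          ∀ r : Place Qb (modularFunctionFieldBar p) →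
              Place (IsLocalRing.ResidueField A')
                (modularFunctionFieldFullC (IsLocalRing.ResidueField A') p),
            IsPlaceReductionModL A' p r →
              (W.InZeroComponentAt A' Q → r x = r (cuspInf p)) ∧
              (¬ W.InZeroComponentAt A' Q → r x = r (cuspZero p)))
    -- the remaining hypotheses of S15
    (h2Δ : (2 : ℤ) ∣ W.Δ) (h2c₄ : ¬ (2 : ℤ) ∣ W.c₄)
    (h2 : ∀ A : ValuationSubring (AlgebraicClosure ℚ), A.LiesOverPrime 2 →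
      ¬ W.InZeroComponentAt A Q)
    (h3Δ : (3 : ℤ) ∣ W.Δ) (h3c₄ : ¬ (3 : ℤ) ∣ W.c₄)
    (h3 : ∀ A : ValuationSubring (AlgebraicClosure ℚ), A.LiesOverPrime 3 →
      ¬ W.InZeroComponentAt A Q)
    {ℓ : ℕ} (hℓ : ℓ.Prime) (hℓp : ℓ ≠ p) (hℓΔ : (ℓ : ℤ) ∣ W.Δ) (hℓc₄ : ¬ (ℓ : ℤ) ∣ W.c₄)
    (A : ValuationSubring (AlgebraicClosure ℚ)) (hA : A.LiesOverPrime ℓ) :
    ¬ W.InZeroComponentAt A Q := by
  have hp2 : p ≠ 2 := fun h => hp' (by simp [h])
  have hp3 : p ≠ 3 := fun h => hp' (by simp [h])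
  have hpos : 0 < p - 1 := by have := hp.two_le; omega
  have hcusp : (p - 1) • Fermat.Agent.MAZ.HeckeCusp89.c0 p = 0 :=
    Fermat.Agent.MAZ.Ogg24.pred_nsmul_c0 p hp
  have hord : addOrderOf (Fermat.Agent.MAZ.HeckeCusp89.c0 p) ∣ p - 1 :=
    addOrderOf_dvd_of_nsmul_eq_zero hcusp
  have hfin : IsOfFinAddOrder (Fermat.Agent.MAZ.HeckeCusp89.c0 p) :=
    isOfFinAddOrder_iff_nsmul_eq_zero.2 ⟨p - 1, hpos, hcusp⟩
  have hN0 : 0 < addOrderOf (Fermat.Agent.MAZ.HeckeCusp89.c0 p) := hfin.addOrderOf_pos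
  obtain ⟨x, hxfix, hx⟩ := hE3
  refine Fermat.Agent.MAZ.Endgame88.s15_of_inputs_order hp hp2 hp3 W Q
    (fun {ℓ'} hℓ' hℓ'p A' hA' h m hm z hmz hz => by
      haveI : Fact ℓ'.Prime := ⟨hℓ'⟩
      exact Fermat.Agent.S18.result p hℓ'p A' hA' h m hm z hmz hz)
    @hG0 @hE4 (p - 1) hpos hcusp (c0_ne_zero p hp hp') ?_ ?_ x hxfix
    (fun σ => Fermat.Agent.MAZ.CuspGal19.galois_smul_cuspZero p hp σ)
    @hx h2Δ h2c₄ h2 h3Δ h3c₄ h3 hℓ hℓp hℓΔ hℓc₄ A hA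
  · -- (FIN')
    intro r hr hrN S hS
    have hrp1 : r ∣ p - 1 := hrN.trans hord
    have hpr : p ≠ r := by
      intro h
      have := Nat.le_of_dvd hpos hrp1
      omega
    haveI : Fact r.Prime := ⟨hr⟩
    have hpS : p ∈ S := hS (by simp)
    exact fin_of_k3_a3 p hp r hr hpr S hS (hK3 r hr hrp1) (hA3 r hrp1 S hpS) hfg (hdiv r hr)
      (hflat r hpr) (hK2 r hr hpr)
  · -- (E2ℓ), order form
    intro ℓ' hℓ' h5 hℓ'p hℓ'N A' hA'
    have hℓ'p1 : ℓ' ∣ p - 1 := hℓ'N.trans hord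
    refine ⟨addOrderOf (Fermat.Agent.MAZ.HeckeCusp89.c0 p) / ℓ', ?_, ?_⟩
    · rw [← mul_smul, Nat.mul_div_cancel' hℓ'N, addOrderOf_nsmul_eq_zero]
    · refine Fermat.Agent.MAZ.OggL24.red_nsmul_c0_ne_zero p hp hℓ' h5 hℓ'p1 A' hA'
        (hG0 hℓ' hℓ'p A' hA')
        (K := addOrderOf (Fermat.Agent.MAZ.HeckeCusp89.c0 p) / ℓ') (K' := 1)
        (m := (p - 1) / addOrderOf (Fermat.Agent.MAZ.HeckeCusp89.c0 p)) ?_ ?_
      · intro h1
        have := Nat.le_of_dvd one_pos h1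
        have := hℓ'.two_le
        omega
      · obtain ⟨u, hu⟩ := hord
        obtain ⟨v, hv⟩ := hℓ'N
        have hℓ'pos : 0 < ℓ' := hℓ'.pos
        rw [one_mul, hu, Nat.mul_div_cancel_left u hN0]
        rw [hv, Nat.mul_div_cancel_left v hℓ'pos]
        ring

end Fermat.Agent.MAZ.Top19
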